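import Fermat.Agent.EC.FrobTrace.PolyForms
import Fermat.Agent.EC.Torsion.AddSub
import Fermat.Agent.EC.FrobTrace.GenericPoint

/-!
# The degree of a point over the function field

For a point over the function field whose abscissa is a rational function in the generic abscissa,
`xDeg` is the degree of that rational function. It satisfies the exact parallelogram law and is
multiplicative under substitution.
-/

set_option autoImplicit false

open Polynomial
open scoped WeierstrassCurve.Affine Polynomial.Bivariate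
open WeierstrassCurve

namespace Fermat.Agent.EC.FrobTrace

variable {k : Type*} [Field k] (W : WeierstrassCurve.Affine k)

/-- Points on which the involution acts as negation. -/
noncomputable def antiPoints : AddSubgroup (W⁄W.FunctionField).Point where
  carrier := {P | Affine.Point.map (W' := W) (conjField W) P = -P}
  zero_mem' := by simp
  add_mem' {P Q} hP hQ := by
    simp only [Set.mem_ofPred_eq] at hP hQ ⊢
    rw [map_add, hP, hQ, neg_add]
  neg_mem' {P} hP := by
    simp only [Set.mem_ofPred_eq] at hP ⊢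
    rw [map_neg, hP]

variable {W}

theorem mem_antiPoints {P : (W⁄W.FunctionField).Point} :
    P ∈ antiPoints W ↔ Affine.Point.map (W' := W) (conjField W) P = -P :=
  Iff.rfl

theorem gen_mem_antiPoints [W.IsElliptic] : gen W ∈ antiPoints W := by
  rw [mem_antiPoints, gen, Affine.Point.map_some, Affine.Point.neg_some]
  simp [conjField_genX, conjField_genY]

theorem map_mem_antiPoints {P : (W⁄W.FunctionField).Point}
    (θ : W.FunctionField →ₐ[k] W.FunctionField)
    (hθ : θ.comp (conjField W) = (conjField W).comp θ) (hP : P ∈ antiPoints W) :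
    Affine.Point.map (W' := W) θ P ∈ antiPoints W := by
  rw [mem_antiPoints] at hP ⊢
  rw [Affine.Point.map_map, ← hθ, ← Affine.Point.map_map, hP, map_neg]

/-- `v` is a primitive polynomial representative of the abscissa of `P`. -/
def IsRep (P : (W⁄W.FunctionField).Point) (v : Fin 2 → k[X]) : Prop :=
  Primitive v ∧ ∃ c : W.FunctionField, c ≠ 0 ∧ ∀ i, toFun' W (v i) = c * P.xRep i

theorem proportional_of_scalar {ι : Type*} {v w : ι → k[X]} {x : ι → W.FunctionField}
    {a b : W.FunctionField} (hv : ∀ i, toFun' W (v i) = a * x i)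
    (hw : ∀ i, toFun' W (w i) = b * x i) (i j : ι) : v i * w j = v j * w i := by
  apply toFun'_injective W
  rw [map_mul, map_mul, hv, hw, hv, hw]
  ring

theorem IsRep.supDeg_eq {P : (W⁄W.FunctionField).Point} {v w : Fin 2 → k[X]} (hv : IsRep P v)
    (hw : IsRep P w) : supDeg v = supDeg w := by
  obtain ⟨hv1, a, -, hv2⟩ := hv
  obtain ⟨hw1, b, -, hw2⟩ := hw
  exact supDeg_eq_of_proportional hv1 hw1 (proportional_of_scalar hv2 hw2)

theorem primitive_pair_of_isCoprime {a b : k[X]} (h : IsCoprime a b) :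
    Primitive ![a, b] := by
  rw [primitive_iff_aeval]
  intro t
  obtain ⟨u, v, huv⟩ := h
  by_contra hc
  push Not at hc
  have ha : aeval t a = 0 := hc 0
  have hb : aeval t b = 0 := hc 1
  have := congrArg (aeval t) huv
  rw [map_add, map_mul, map_mul, ha, hb, map_one] at this
  simp at this

theorem isRep_zero : IsRep (0 : (W⁄W.FunctionField).Point) ![1, 0] :=
  ⟨primitive_pair_of_isCoprime isCoprime_one_left, 1, one_ne_zero, fun i => by
    fin_cases i <;> simp⟩

theorem exists_isRep [W.IsElliptic] {P : (W⁄W.FunctionField).Point} (hP : P ∈ antiPoints W) :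
    ∃ v, IsRep P v := by
  rcases P with _ | ⟨x, y, h⟩
  · exact ⟨_, isRep_zero⟩
  · rw [mem_antiPoints, Affine.Point.map_some, Affine.Point.neg_some] at hP
    injection hP with hx hy
    obtain ⟨r, d, hd, hrd⟩ := exists_eq_div_of_conjField_eq W hx
    obtain ⟨r', d', c, hcop, hr, hd'⟩ :=
      UniqueFactorizationMonoid.exists_reduced_factors' r d hd
    have hd0 : d' ≠ 0 := by rintro rfl; exact hd (by simp [← hd'])
    have hc0 : c ≠ 0 := by rintro rfl; exact hd (by simp [← hd'])
    refine ⟨![r', d'], primitive_pair_of_isCoprime ?_, toFun' W d', ?_, ?_⟩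
    · exact hcop.isCoprime
    · exact (map_ne_zero_iff _ (toFun'_injective W)).mpr hd0
    · intro i
      fin_cases i
      · refine mul_left_cancel₀ ((map_ne_zero_iff _ (toFun'_injective W)).mpr hc0) ?_
        simp only [Fin.zero_eta, Fin.isValue, Matrix.cons_val_zero, Affine.Point.xRep_some]
        rw [← map_mul, hr, ← hrd, ← mul_assoc, ← map_mul, hd', mul_comm]
      · simp

open scoped Classical in
/-- The degree of the abscissa, or `0` when it is not a rational function of `X`. -/
noncomputable def xDeg (P : (W⁄W.FunctionField).Point) : ℕ :=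
  if h : ∃ v, IsRep P v then supDeg h.choose else 0

theorem IsRep.xDeg_eq {P : (W⁄W.FunctionField).Point} {v : Fin 2 → k[X]} (hv : IsRep P v) :
    xDeg P = supDeg v := by
  have h : ∃ v, IsRep P v := ⟨v, hv⟩
  rw [xDeg, dif_pos h]
  exact h.choose_spec.supDeg_eq hv

theorem xDeg_zero : xDeg (0 : (W⁄W.FunctionField).Point) = 0 := by
  rw [isRep_zero.xDeg_eq]
  exact supDeg_eq_of_degTop (c := ![1, 0]) (fun i => by fin_cases i <;> simp [DegTop])
    (fun h => one_ne_zero (congrFun h 0))

theorem isRep_gen [W.IsElliptic] : IsRep (gen W) ![X, 1] :=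
  ⟨primitive_pair_of_isCoprime isCoprime_one_right, 1, one_ne_zero, fun i => by
    fin_cases i <;> simp [gen, genX]⟩

theorem xDeg_gen [W.IsElliptic] : xDeg (gen W) = 1 := by
  rw [isRep_gen.xDeg_eq]
  exact supDeg_eq_of_degTop (c := ![1, 0]) (fun i => by fin_cases i <;> simp [DegTop, Polynomial.coeff_one])
    (fun h => one_ne_zero (congrFun h 0))

/-- Naturality of `addSubMap` in the coefficient ring. -/
theorem aeval_addSubMap {R S : Type*} [CommRing R] [CommRing S] [Algebra R S]
    (W : WeierstrassCurve R) (x : Fin 3 → S) (i : Fin 3) :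
    MvPolynomial.aeval x (W.addSubMap i) = Torsion.asub (W.map (algebraMap R S)) x i := by
  fin_cases i <;> simp [Torsion.asub, WeierstrassCurve.addSubMap, ← map_ofNat (algebraMap R S)]

theorem sym2Pair_toFun' {v w : Fin 2 → k[X]} {x y : Fin 2 → W.FunctionField}
    {a b : W.FunctionField} (hv : ∀ i, toFun' W (v i) = a * x i)
    (hw : ∀ i, toFun' W (w i) = b * y i) (i : Fin 3) :
    toFun' W (sym2Pair v w i) = a * b * sym2Pair x y i := by
  fin_cases i <;> simp [sym2Pair, -AlgHom.coe_comp, map_add, map_mul, hv, hw] <;> ring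

theorem xDeg_parallelogram [W.IsElliptic] {P Q : (W⁄W.FunctionField).Point}
    (hP : P ∈ antiPoints W) (hQ : Q ∈ antiPoints W) :
    xDeg (P + Q) + xDeg (P - Q) = 2 * xDeg P + 2 * xDeg Q := by
  obtain ⟨v₁, h₁⟩ := exists_isRep hP
  obtain ⟨v₂, h₂⟩ := exists_isRep hQ
  obtain ⟨v₃, h₃⟩ := exists_isRep ((antiPoints W).add_mem hP hQ)
  obtain ⟨v₄, h₄⟩ := exists_isRep ((antiPoints W).sub_mem hP hQ)
  rw [h₁.xDeg_eq, h₂.xDeg_eq, h₃.xDeg_eq, h₄.xDeg_eq]
  obtain ⟨hs, hsd⟩ := primitive_sym2Pair h₁.1 h₂.1
  obtain ⟨hu, hud⟩ := primitive_sym2Pair h₃.1 h₄.1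
  obtain ⟨ht, htd⟩ := primitive_comp (F := W.addSubMap) (d := 2)
    (isHomogeneous_addSubMap W) (fun x hx => by
      by_contra hc
      push Not at hc
      refine Torsion.asub_ne_zero (W.map (algebraMap k (AlgebraicClosure k))) hx (funext fun j => ?_)
      rw [← aeval_addSubMap]
      exact hc j) hs
  obtain ⟨a₁, -, e₁⟩ := h₁.2
  obtain ⟨a₂, -, e₂⟩ := h₂.2
  obtain ⟨a₃, ha₃, e₃⟩ := h₃.2
  obtain ⟨a₄, ha₄, e₄⟩ := h₄.2
  obtain ⟨c, -, hc⟩ := Torsion.exists_asub_sym2x _ P Q
  have et : ∀ i, toFun' W (MvPolynomial.aeval (sym2Pair v₁ v₂) (W.addSubMap i)) =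
      (a₁ * a₂) ^ 2 * c * sym2Pair (P + Q).xRep (P - Q).xRep i := fun i => by
    rw [← AlgHom.comp_apply, MvPolynomial.comp_aeval]
    rw [show (fun j => toFun' W (sym2Pair v₁ v₂ j)) =
        fun j => (a₁ * a₂) * sym2Pair P.xRep Q.xRep j from funext (sym2Pair_toFun' e₁ e₂),
      aeval_mul_of_isHomogeneous (isHomogeneous_addSubMap W i), aeval_addSubMap, mul_assoc]
    exact congrArg _ (congrFun hc i)
  have := supDeg_eq_of_proportional ht hu (proportional_of_scalar et (sym2Pair_toFun' e₃ e₄))
  rw [htd, hsd, hud] at this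
  omega

theorem toFun'_aeval_homogenize {p : k[X]} {n : ℕ} (hp : p.natDegree ≤ n) {w : Fin 2 → k[X]}
    {c x : W.FunctionField} (hw : ∀ i, toFun' W (w i) = c * ![x, 1] i) :
    toFun' W (MvPolynomial.aeval w (p.homogenize n)) = c ^ n * aeval x p := by
  rw [← AlgHom.comp_apply, MvPolynomial.comp_aeval]
  rw [show (fun j => toFun' W (w j)) = fun j => c * ![x, 1] j from funext hw,
    aeval_mul_of_isHomogeneous (isHomogeneous_homogenize p),
    aeval_homogenize_of_eq_one hp _ rfl]
  rfl

theorem aeval_homogenize_eq {S : Type*} [CommRing S] [Algebra k S] {p : k[X]} {n : ℕ}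
    (a : S) : MvPolynomial.aeval ![a, 0] (p.homogenize n) = algebraMap k S (p.coeff n) * a ^ n := by
  rw [Polynomial.homogenize, map_sum, Finset.sum_eq_single (n, 0)]
  · simp [MvPolynomial.aeval_monomial, Finsupp.update_eq_add_single, Finsupp.prod_fintype]
  · rintro ⟨i, j⟩ hij hne
    have hj : j ≠ 0 := by
      rintro rfl
      exact hne (by simpa using hij)
    simp [MvPolynomial.aeval_monomial, Finsupp.update_eq_add_single, Finsupp.prod_fintype, hj]
  · simp

/-- Substitution of a point with transcendental abscissa multiplies degrees. -/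
theorem isRep_map {P : (W⁄W.FunctionField).Point} {v w : Fin 2 → k[X]} (hv : IsRep P v)
    {c g : W.FunctionField} (hw : Primitive w) (hc : c ≠ 0)
    (hwg : ∀ i, toFun' W (w i) = c * ![g, 1] i)
    (θ : W.FunctionField →ₐ[k] W.FunctionField) (hθ : ∀ p, θ (toFun' W p) = aeval g p) :
    ∃ u, IsRep (Affine.Point.map (W' := W) θ P) u ∧ supDeg u = supDeg v * supDeg w := by
  obtain ⟨hv1, a, ha, hva⟩ := hv
  obtain ⟨hu, hud⟩ := primitive_comp (F := fun j => (v j).homogenize (supDeg v)) (d := supDeg v)
    (fun j => isHomogeneous_homogenize _) (fun x hx => by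
      by_cases h1 : x 1 = 0
      · obtain ⟨j, hj⟩ := Function.ne_iff.mp (topCoeff_ne_zero hv1)
        refine ⟨j, ?_⟩
        have h0 : x 0 ≠ 0 := fun h0 => hx (funext fun i => by fin_cases i <;> assumption)
        rw [show x = ![x 0, 0] from funext fun i => by fin_cases i <;> simp [h1],
          aeval_homogenize_eq]
        exact mul_ne_zero ((_root_.map_ne_zero _).mpr hj) (pow_ne_zero _ h0)
      · obtain ⟨j, hj⟩ := primitive_iff_aeval.mp hv1 (x 0 / x 1)
        refine ⟨j, ?_⟩
        rw [show x = fun i => x 1 * ![x 0 / x 1, 1] i from funext fun i => by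
              fin_cases i <;> simp [mul_div_cancel₀ _ h1],
          aeval_mul_of_isHomogeneous (isHomogeneous_homogenize _),
          aeval_homogenize_of_eq_one (natDegree_le_supDeg v j) _ rfl]
        exact mul_ne_zero (pow_ne_zero _ h1) hj) hw
  refine ⟨_, ⟨hu, c ^ supDeg v * θ a, mul_ne_zero (pow_ne_zero _ hc) ((_root_.map_ne_zero θ).mpr ha),
    fun i => ?_⟩, hud⟩
  have hx : ∀ R : (W⁄W.FunctionField).Point,
      (Affine.Point.map (W' := W) θ R).xRep i = θ (R.xRep i) := by
    rintro (_ | ⟨x, y, h⟩)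
    · rw [← Affine.Point.zero_def, map_zero]
      fin_cases i <;> simp
    · rw [Affine.Point.map_some]
      fin_cases i <;> simp
  rw [toFun'_aeval_homogenize (natDegree_le_supDeg v i) hwg, hx, mul_assoc, ← map_mul, ← hva, hθ]

/-- A rational function of positive degree is transcendental. -/
theorem transcendental_of_supDeg_pos {w : Fin 2 → k[X]} {c g : W.FunctionField}
    (hw : Primitive w) (hwg : ∀ i, toFun' W (w i) = c * ![g, 1] i) (hpos : supDeg w ≠ 0) :
    Transcendental k g := by
  intro halg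
  obtain ⟨p, hp, hpg⟩ : ∃ p : k[X], p.Monic ∧ aeval g p = 0 :=
    ⟨minpoly k g, minpoly.monic halg.isIntegral, minpoly.aeval k g⟩
  obtain ⟨hu, hud⟩ := primitive_comp (d := p.natDegree)
    (F := ![p.homogenize p.natDegree, MvPolynomial.X 1 ^ p.natDegree])
    (fun j => by
      fin_cases j
      · exact isHomogeneous_homogenize p
      · exact MvPolynomial.isHomogeneous_X_pow _ _)
    (fun x hx => by
      by_cases h1 : x 1 = 0
      · have h0 : x 0 ≠ 0 := fun h0 => hx (funext fun i => by fin_cases i <;> assumption)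
        refine ⟨0, ?_⟩
        rw [show x = ![x 0, 0] from funext fun i => by fin_cases i <;> simp [h1],
          Matrix.cons_val_zero, aeval_homogenize_eq, hp.coeff_natDegree, map_one, one_mul]
        exact pow_ne_zero _ h0
      · exact ⟨1, by simp [h1]⟩) hw
  set u := fun j => MvPolynomial.aeval w
    (![p.homogenize p.natDegree, MvPolynomial.X 1 ^ p.natDegree] j) with hudef
  have hu0 : u 0 = 0 := by
    apply toFun'_injective W
    rw [map_zero, hudef]
    simp only [Matrix.cons_val_zero]
    rw [toFun'_aeval_homogenize le_rfl hwg, hpg, mul_zero]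
  have hdeg0 : supDeg u = 0 := by
    have h1 : IsUnit (u 1) := by
      have h : Ideal.span (Set.range u) ≤ Ideal.span {u 1} := by
        rw [Ideal.span_le]
        rintro _ ⟨i, rfl⟩
        fin_cases i
        · change u 0 ∈ Ideal.span {u 1}
          rw [hu0]; exact zero_mem _
        · exact Ideal.subset_span rfl
      rw [hu, top_le_iff, Ideal.span_singleton_eq_top] at h
      exact h
    rw [← Nat.le_zero]
    refine Finset.sup_le fun i _ => ?_
    fin_cases i
    · change (u 0).natDegree ≤ 0; simp [hu0]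
    · exact le_of_eq (natDegree_eq_zero_of_isUnit h1)
  rw [hud, mul_eq_zero] at hdeg0
  have hp0 : p.natDegree ≠ 0 := fun h => by
    rw [hp.natDegree_eq_zero.mp h, map_one] at hpg
    exact one_ne_zero hpg
  exact hdeg0.elim hp0 hpos

theorem transcendental_of_xDeg_ne_zero {x y : W.FunctionField}
    {h : (W⁄W.FunctionField).Nonsingular x y} (hd : xDeg (.some x y h) ≠ 0) :
    Transcendental k x := by
  by_cases hP : ∃ v, IsRep (Affine.Point.some x y h) v
  · obtain ⟨v, hv⟩ := hP
    obtain ⟨c, -, hvc⟩ := hv.2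
    exact transcendental_of_supDeg_pos hv.1 (by simpa using hvc) (hv.xDeg_eq ▸ hd)
  · exact absurd (by rw [xDeg, dif_neg hP]) hd

/-- Substituting `Q` for the generic point multiplies the degree by that of `Q`. -/
theorem xDeg_subst [W.IsElliptic] {P : (W⁄W.FunctionField).Point} (hP : P ∈ antiPoints W)
    {x y : W.FunctionField} {h : (W⁄W.FunctionField).Nonsingular x y}
    (hQ : Affine.Point.some x y h ∈ antiPoints W) (hd : xDeg (.some x y h) ≠ 0) :
    xDeg (Affine.Point.map (W' := W) (pointHom h.1 (transcendental_of_xDeg_ne_zero hd)) P) =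
      xDeg P * xDeg (.some x y h) := by
  obtain ⟨v, hv⟩ := exists_isRep hP
  obtain ⟨w, hw⟩ := exists_isRep hQ
  obtain ⟨c, hc, hwc⟩ := hw.2
  obtain ⟨u, hu, hud⟩ := isRep_map hv hw.1 hc (g := x) (by simpa using hwc) _
    (pointHom_toFun' h.1 (transcendental_of_xDeg_ne_zero hd))
  rw [hu.xDeg_eq, hud, hv.xDeg_eq, hw.xDeg_eq]

/-- A point of degree zero has constant abscissa. -/
theorem eq_algebraMap_of_xDeg_eq_zero [W.IsElliptic] {x y : W.FunctionField}
    {h : (W⁄W.FunctionField).Nonsingular x y} (hP : Affine.Point.some x y h ∈ antiPoints W)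
    (hd : xDeg (.some x y h) = 0) : ∃ a : k, x = algebraMap k W.FunctionField a := by
  obtain ⟨v, hv⟩ := exists_isRep hP
  obtain ⟨c, hc, hvc⟩ := hv.2
  rw [hv.xDeg_eq] at hd
  have hC : ∀ i, toFun' W (v i) = algebraMap k W.FunctionField ((v i).coeff 0) := fun i => by
    have hi : v i = C ((v i).coeff 0) := eq_C_of_natDegree_le_zero (by
      have := natDegree_le_supDeg v i
      omega)
    conv_lhs => rw [hi, ← Polynomial.algebraMap_eq, AlgHom.commutes]
  refine ⟨(v 0).coeff 0 / (v 1).coeff 0, ?_⟩
  have h0 : toFun' W (v 0) = c * x := by simpa using hvc 0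
  have h1 : toFun' W (v 1) = c := by simpa using hvc 1
  rw [map_div₀, ← hC, ← hC, h0, h1]
  field_simp

end Fermat.Agent.EC.FrobTrace
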