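import Fermat.Agent.EC.FrobTrace.Main
import Fermat.Agent.Arith.Density.Frobenius
import Fermat.Agent.Arith.RootsOfUnity
import Fermat.Prelude.Def_FreyPackage_DetCyclotomic

/-!
# The determinant of the mod `p` representation is the cyclotomic character
-/

set_option autoImplicit false

open scoped WeierstrassCurve.Affine
open WeierstrassCurve WeierstrassCurve.Affine.Point

namespace Fermat.Agent.EC.FrobTrace

local notation "Q̄" => AlgebraicClosure ℚ
local notation "GQ" => AlgebraicClosure ℚ ≃ₐ[ℚ] AlgebraicClosure ℚ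

theorem card_rootsOfUnity_Qbar (p : ℕ) [NeZero p] : Nat.card (rootsOfUnity p Q̄) = p :=
  IsAlgClosed.card_rootsOfUnity_eq Q̄ p

/-- The determinant of the mod `p` representation of an elliptic curve over `ℚ` with integral
model is the mod `p` cyclotomic character. -/
theorem galoisRepDetEqCyclotomic (W : WeierstrassCurve ℤ) (hΔ : W.Δ ≠ 0) (p : ℕ) [Fact p.Prime]
    (hn : Nat.card (rootsOfUnity p Q̄) = p) :
    GaloisRepDetEqCyclotomic (K := Q̄) ℚ (W.map (Int.castRingHom ℚ)) p hn := by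
  classical
  have hp : p.Prime := Fact.out
  have : (W.map (Int.castRingHom ℚ)).IsElliptic := isElliptic_map_rat hΔ
  obtain ⟨L, hLfin, hL⟩ := Torsion.galoisFactorsThroughFiniteLevel_galoisRepModuleEnd
    (W.map (Int.castRingHom ℚ)) (n := p) hp.ne_zero
  obtain ⟨ζ, hζ⟩ : ∃ ζ : Q̄, IsPrimitiveRoot ζ p :=
    HasEnoughRootsOfUnity.exists_primitiveRoot Q̄ p
  set χ : GQ →* (ZMod p)ˣ :=
    { toFun := fun σ => galoisRepDet (S := ℚ) (K := Q̄) (W.map (Int.castRingHom ℚ)) p σ /
        modularCyclotomicCharacter Q̄ hn (σ : Q̄ ≃+* Q̄)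
      map_one' := by
        rw [map_one]
        change 1 / modularCyclotomicCharacter Q̄ hn 1 = 1
        rw [map_one, div_one]
      map_mul' := fun σ τ => by
        rw [map_mul]
        change _ / modularCyclotomicCharacter Q̄ hn ((σ : Q̄ ≃+* Q̄) * (τ : Q̄ ≃+* Q̄)) = _
        rw [map_mul, mul_div_mul_comm] } with hχdef
  have hχ : ∀ σ : GQ, χ σ = galoisRepDet (S := ℚ) (K := Q̄) (W.map (Int.castRingHom ℚ)) p σ /
      modularCyclotomicCharacter Q̄ hn (σ : Q̄ ≃+* Q̄) := fun σ => rfl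
  let L' : IntermediateField ℚ Q̄ := L ⊔ IntermediateField.adjoin ℚ {ζ}
  have : FiniteDimensional ℚ (IntermediateField.adjoin ℚ ({ζ} : Set Q̄)) :=
    IntermediateField.adjoin.finiteDimensional (Algebra.IsIntegral.isIntegral ζ)
  have : FiniteDimensional ℚ L' := IntermediateField.finiteDimensional_sup _ _
  suffices h : χ = 1 by
    intro σ
    have := DFunLike.congr_fun h σ
    rwa [hχ, MonoidHom.one_apply, div_eq_one] at this
  refine Arith.Density.eq_one_of_frobenius χ L' (fun σ hσ => ?_)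
    (insert p W.Δ.natAbs.primeFactors) ?_
  · rw [hχ, div_eq_one]
    have h1 := hL σ fun x hx => hσ x ((le_sup_left : L ≤ L') hx)
    have hz : σ ζ = ζ := hσ ζ ((le_sup_right : IntermediateField.adjoin ℚ {ζ} ≤ L')
      (IntermediateField.subset_adjoin ℚ _ (Set.mem_singleton ζ)))
    have h2 : modularCyclotomicCharacter Q̄ hn (σ : Q̄ ≃+* Q̄) = 1 := by
      apply Units.ext
      rw [Arith.modularCyclotomicCharacter_eq_natCast hn (c := 1) fun t ht => by
        obtain ⟨i, -, rfl⟩ := hζ.eq_pow_of_pow_eq_one ht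
        rw [pow_one, map_pow]
        exact congrArg (· ^ i) hz]
      simp
    rw [h2]
    apply Units.ext
    rw [galoisRepDet_apply, LinearEquiv.coe_det, Units.val_one,
      show ((galoisRep (S := ℚ) (K := Q̄) (W.map (Int.castRingHom ℚ)) p σ) :
        _ →ₗ[ZMod p] _) = galoisRepModuleEnd ℚ (W.map (Int.castRingHom ℚ)) p σ from rfl, h1]
    exact LinearMap.det_id
  · intro ℓ hℓ hℓS A hA σ hσ
    rw [Finset.mem_insert, not_or] at hℓS
    have hgood : W.IsGoodPrimeFor ℓ := fun hdvd => hℓS.2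
      (Nat.mem_primeFactors.mpr ⟨hℓ, Int.natCast_dvd.mp hdvd, Int.natAbs_ne_zero.mpr hΔ⟩)
    have hndvd : ¬ ℓ ∣ p := fun h => hℓS.1 ((Nat.prime_dvd_prime_iff_eq hℓ hp).mp h)
    rw [hχ, div_eq_one]
    apply Units.ext
    rw [Arith.modularCyclotomicCharacter_frobenius hA hℓ hσ hn hndvd, galoisRepDet_apply,
      LinearEquiv.coe_det,
      show ((galoisRep (S := ℚ) (K := Q̄) (W.map (Int.castRingHom ℚ)) p σ) :
        _ →ₗ[ZMod p] _) = galoisRepModuleEnd ℚ (W.map (Int.castRingHom ℚ)) p σ from rfl]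
    exact det_frobenius W hℓ hgood hℓS.1 hA hσ

end Fermat.Agent.EC.FrobTrace
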