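import Fermat.Agent.EC.FrobTrace.Quadratic
import Fermat.Agent.EC.FrobTrace.LinearAlgebra
import Fermat.Agent.EC.Torsion.Count

/-!
# Frobenius on the torsion of a curve over a finite field
-/

set_option autoImplicit false

open scoped WeierstrassCurve.Affine
open WeierstrassCurve

namespace Fermat.Agent.EC.FrobTrace

variable {k : Type*} [Field k] [Fintype k] (W : WeierstrassCurve.Affine k) [W.IsElliptic]

local notation "q" => Fintype.card k

/-- The Hasse bound. -/
theorem frobTraceInt_sq_le : frobTraceInt W ^ 2 ≤ 4 * q := by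
  set a := frobTraceInt W with ha
  have hf := degInt_parallelogram W
  set φG := frobA W (genA W)
  set G := genA W
  have h1 := (f_zsmul hf 2 φG).1
  have h2 := (f_zsmul hf (-a) G).1
  have h3 := (f_zsmul hf 2 φG).2 ((-a) • G)
  rw [polarForm_comm φG, (f_zsmul hf (-a) G).2, polarForm_comm G, polarForm_frob] at h3
  have hpos : 0 ≤ degInt W ((2 : ℤ) • φG + (-a) • G) := Int.natCast_nonneg _
  simp only [polarForm, φG, G, degInt_frobA, degInt_genA] at h1 h2 h3 hpos
  simp only [← ha] at h3
  nlinarith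

/-- Frobenius of the curve satisfies its quadratic equation, and acts as a scalar on the points
of prime order `p` only when its characteristic polynomial has a double root modulo `p`. -/
theorem frobenius_facts {L : Type*} [Field L] [Algebra k L] [DecidableEq L] [IsAlgClosed L]
    [Algebra.IsAlgebraic k L] (V : WeierstrassCurve.Affine L) (hV : (W⁄L) = V)
    (F : V.Point →+ V.Point)
    (hF : ∀ (x y : L) (h : V.Nonsingular x y),
      ∃ h' : V.Nonsingular (x ^ q) (y ^ q), F (.some x y h) = .some (x ^ q) (y ^ q) h') :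
    (∀ P, F (F P) - frobTraceInt W • F P + (q : ℤ) • P = 0) ∧
    ∀ p : ℕ, p.Prime → (p : L) ≠ 0 → ∀ m : ℤ,
      (p : ℤ) ∣ m ^ 2 - frobTraceInt W * m + q → (∀ P, (p : ℤ) • P = 0 → F P = m • P) →
      (p : ℤ) ∣ 2 * m - frobTraceInt W := by
  subst hV
  have hF' : F = frobPoint W L := by
    refine AddMonoidHom.ext fun P => ?_
    rcases P with _ | ⟨x, y, h⟩
    · rw [← Affine.Point.zero_def, map_zero, map_zero]
    · obtain ⟨h', e⟩ := hF x y h
      rw [e, frobPoint, Affine.Point.map_some]
      rfl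
  subst hF'
  refine ⟨frobQuad_eq_zero W, fun p hp hpL m hroot hm => ?_⟩
  refine scalar_eq_of_card_le (frobPoint W L) (d := (q : ℤ)) hp (frobQuad_eq_zero W)
    (frobTraceInt_sq_le W) (fun r hr s hs => card_kernel_le W r hr s hs) (fun j => ?_) hroot hm
  have hne : ((p ^ j : ℕ) : L) ≠ 0 := by push_cast; exact pow_ne_zero _ hpL
  have : Finite (Submodule.torsionBy ℤ (W⁄L).Point (p ^ j : ℕ)) :=
    Torsion.finite_torsionBy (W⁄L) hne
  have hfin := Set.toFinite (Submodule.torsionBy ℤ (W⁄L).Point (p ^ j : ℕ) : Set (W⁄L).Point)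
  refine ⟨hfin.toFinset, fun P hP => ?_, ?_⟩
  · rw [Set.Finite.mem_toFinset, SetLike.mem_coe, Submodule.mem_torsionBy_iff] at hP
    push_cast at hP
    exact hP
  · rw [← Set.ncard_eq_toFinset_card _ hfin, ← Nat.card_coe_set_eq]
    exact Torsion.natCard_torsionBy (W⁄L) hne

end Fermat.Agent.EC.FrobTrace
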