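import Fermat.Agent.EC.FrobTrace.PointCount
import Mathlib.FieldTheory.IsAlgClosed.AlgebraicClosure
import Mathlib.FieldTheory.AlgebraicClosure

/-!
# Frobenius satisfies its quadratic equation

The degree is a quadratic form on the points generated by the generic point and its Frobenius
images, and this forces `φ² - aφ + q = 0` on points. The degree also bounds the kernel of `φ - m`.
-/

set_option autoImplicit false

open Polynomial
open scoped WeierstrassCurve.Affine Polynomial.Bivariate
open WeierstrassCurve

namespace Fermat.Agent.EC.FrobTrace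

section Parallelogram

variable {A : Type*} [AddCommGroup A] {f : A → ℤ}

/-- The polar form. -/
def polarForm (f : A → ℤ) (x y : A) : ℤ := f (x + y) - f x - f y

theorem polarForm_add_left (hf : ∀ x y, f (x + y) + f (x - y) = 2 * f x + 2 * f y) (x y z : A) :
    polarForm f (x + y) z = polarForm f x z + polarForm f y z := by
  have h1 := hf (x + z) y
  have h2 := hf x (y + z)
  have h3 := hf (x - y) z
  have h4 := hf x y
  have e1 : x + z + y = x + y + z := by abel
  have e2 : x + z - y = x - y + z := by abel
  have e3 : x + (y + z) = x + y + z := by abel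
  have e4 : x - (y + z) = x - y - z := by abel
  rw [e1, e2] at h1
  rw [e3, e4] at h2
  simp only [polarForm]
  linarith

theorem polarForm_comm (x y : A) : polarForm f x y = polarForm f y x := by
  simp only [polarForm, add_comm x y]; ring

theorem f_zero (hf : ∀ x y, f (x + y) + f (x - y) = 2 * f x + 2 * f y) : f 0 = 0 := by
  have := hf 0 0
  simp only [add_zero, sub_zero] at this
  linarith

theorem polarForm_self (hf : ∀ x y, f (x + y) + f (x - y) = 2 * f x + 2 * f y) (x : A) :
    polarForm f x x = 2 * f x := by
  have := hf x x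
  rw [sub_self, f_zero hf] at this
  simp only [polarForm]
  linarith

theorem f_zsmul (hf : ∀ x y, f (x + y) + f (x - y) = 2 * f x + 2 * f y) (n : ℤ) (x : A) :
    f (n • x) = n ^ 2 * f x ∧ ∀ y, polarForm f (n • x) y = n * polarForm f x y := by
  let B : A → (A →+ ℤ) := fun y =>
    AddMonoidHom.mk' (fun z => polarForm f z y) fun a b => polarForm_add_left hf a b y
  have hB : ∀ (m : ℤ) (z y : A), polarForm f (m • z) y = m * polarForm f z y := fun m z y => by
    simpa [B] using map_zsmul (B y) m z
  refine ⟨?_, hB n x⟩
  have h := polarForm_self hf (n • x)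
  rw [hB, polarForm_comm, hB, polarForm_self hf] at h
  linarith

theorem f_add_add (hf : ∀ x y, f (x + y) + f (x - y) = 2 * f x + 2 * f y) (x y z : A) :
    f (x + y + z) = f x + f y + f z + polarForm f x y + polarForm f x z + polarForm f y z := by
  have h := polarForm_add_left hf x y z
  simp only [polarForm] at h ⊢
  linarith

end Parallelogram

variable {k : Type*} [Field k] [Fintype k] (W : WeierstrassCurve.Affine k) [W.IsElliptic]

local notation "q" => Fintype.card k

/-- `q + 1 - #W(k)`. -/
noncomputable def frobTraceInt : ℤ := q + 1 - Nat.card W.Point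

variable {W}

omit [W.IsElliptic] in
theorem map_frobPoint {L M : Type*} [Field L] [Algebra k L] [DecidableEq L] [Field M] [Algebra k M]
    [DecidableEq M] (θ : L →ₐ[k] M) (P : (W⁄L).Point) :
    Affine.Point.map (W' := W) θ (frobPoint W L P) =
      frobPoint W M (Affine.Point.map (W' := W) θ P) := by
  rw [frobPoint, frobPoint, Affine.Point.map_map, Affine.Point.map_map]
  exact congrArg (fun g => Affine.Point.map (W' := W) g P)
    (AlgHom.ext fun z => by simp [map_pow])

omit [WeierstrassCurve.IsElliptic W] in
theorem isRep_frobPoint {P : (W⁄W.FunctionField).Point} {v : Fin 2 → k[X]} (hv : IsRep P v) :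
    IsRep (frobPoint W W.FunctionField P) (fun i => v i ^ q) := by
  obtain ⟨hv1, c, hc, hvc⟩ := hv
  refine ⟨?_, c ^ q, pow_ne_zero _ hc, fun i => ?_⟩
  · rw [primitive_iff_aeval] at hv1 ⊢
    intro t
    obtain ⟨i, hi⟩ := hv1 t
    exact ⟨i, by rw [map_pow]; exact pow_ne_zero _ hi⟩
  · rcases P with _ | ⟨x, y, h⟩
    · rw [← Affine.Point.zero_def, map_zero, map_pow, hvc]
      rw [← Affine.Point.zero_def, mul_pow]
      fin_cases i <;> simp [zero_pow Fintype.card_ne_zero]
    · rw [frobPoint, Affine.Point.map_some, map_pow, hvc, mul_pow]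
      fin_cases i <;> simp

theorem xDeg_frobPoint {P : (W⁄W.FunctionField).Point} (hP : P ∈ antiPoints W) :
    xDeg (frobPoint W W.FunctionField P) = q * xDeg P := by
  obtain ⟨v, hv⟩ := exists_isRep hP
  rw [(isRep_frobPoint hv).xDeg_eq, hv.xDeg_eq]
  refine supDeg_eq_of_degTop (c := fun i => topCoeff v i ^ q)
    (fun i => DegTop.pow ⟨natDegree_le_supDeg v i, rfl⟩ q) ?_
  obtain ⟨i, hi⟩ := Function.ne_iff.mp (topCoeff_ne_zero hv.1)
  exact Function.ne_iff.mpr ⟨i, pow_ne_zero _ hi⟩

variable (W)

/-- The degree as a function on the anti-invariant points. -/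
noncomputable def degInt (P : antiPoints W) : ℤ :=
  xDeg (P : (W⁄W.FunctionField).Point)

omit [Fintype k] in
theorem degInt_parallelogram (P Q : antiPoints W) :
    degInt W (P + Q) + degInt W (P - Q) = 2 * degInt W P + 2 * degInt W Q := by
  simp only [degInt, AddSubgroup.coe_add, AddSubgroup.coe_sub]
  exact_mod_cast xDeg_parallelogram P.2 Q.2

/-- The generic point as an anti-invariant point. -/
noncomputable def genA : antiPoints W := ⟨gen W, gen_mem_antiPoints⟩

/-- Frobenius on the anti-invariant points. -/
noncomputable def frobA : antiPoints W →+ antiPoints W :=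
  ((frobPoint W W.FunctionField).comp (antiPoints W).subtype).codRestrict (antiPoints W)
    fun P => frobPoint_mem_antiPoints W P.2

theorem degInt_frobA (P : antiPoints W) : degInt W (frobA W P) = q * degInt W P := by
  simp only [degInt, frobA, AddMonoidHom.coe_comp, AddMonoidHom.codRestrict_apply,
    Function.comp_apply, AddSubgroup.subtype_apply]
  exact_mod_cast xDeg_frobPoint P.2

omit [Fintype k] in
theorem degInt_genA : degInt W (genA W) = 1 := by
  simp [degInt, genA, xDeg_gen]

theorem degInt_frob_sub_one : degInt W (frobA W (genA W) - genA W) = q + 1 - frobTraceInt W := by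
  simp only [degInt, genA, frobA, AddSubgroup.coe_sub, AddMonoidHom.codRestrict_apply,
    AddMonoidHom.coe_comp, Function.comp_apply, AddSubgroup.subtype_apply,
    xDeg_frobPoint_gen_sub_gen, frobTraceInt]
  ring

theorem degInt_frob_add_one : degInt W (frobA W (genA W) + genA W) = q + 1 + frobTraceInt W := by
  have h := degInt_parallelogram W (frobA W (genA W)) (genA W)
  rw [degInt_frob_sub_one, degInt_frobA, degInt_genA] at h
  linarith

theorem polarForm_frob : polarForm (degInt W) (frobA W (genA W)) (genA W) = frobTraceInt W := by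
  simp only [polarForm, degInt_frob_add_one, degInt_frobA, degInt_genA]
  ring

theorem frob_add_one_pos : 0 < (q : ℤ) + 1 + frobTraceInt W := by
  classical
  have hle : Nat.card W.Point ≤ 2 * q + 1 := by
    rw [natCard_point]
    have : ∑ x₀ : k, (fiber W x₀).card ≤ ∑ _x₀ : k, 2 := Finset.sum_le_sum fun x₀ _ => by
      by_cases hf : fiber W x₀ = ∅
      · simp [hf]
      · obtain ⟨y, hy⟩ := Finset.nonempty_iff_ne_empty.mpr hf
        rw [fiber_eq W ((mem_fiber W).mp hy)]
        exact (Finset.card_insert_le _ _).trans (by simp)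
    simp at this
    omega
  rw [frobTraceInt]
  omega

omit [Fintype k] in
/-- Substituting an anti-invariant point of positive degree for the generic point. -/
theorem exists_subst {P : (W⁄W.FunctionField).Point} (hP : P ∈ antiPoints W)
    (hd : xDeg P ≠ 0) :
    ∃ θ : W.FunctionField →ₐ[k] W.FunctionField,
      Affine.Point.map (W' := W) θ (gen W) = P ∧
      ∀ Q ∈ antiPoints W, xDeg (Affine.Point.map (W' := W) θ Q) = xDeg Q * xDeg P := by
  rcases P with _ | ⟨x, y, h⟩
  · exact absurd xDeg_zero hd
  · exact ⟨_, map_pointHom_gen h (transcendental_of_xDeg_ne_zero hd),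
      fun Q hQ => xDeg_subst hQ hP hd⟩

theorem degInt_frobSq_sub_one :
    degInt W (frobA W (frobA W (genA W)) - genA W) =
      (q + 1 - frobTraceInt W) * (q + 1 + frobTraceInt W) := by
  set Q := frobA W (genA W) + genA W with hQ
  have hQd : xDeg (Q : (W⁄W.FunctionField).Point) ≠ 0 := by
    intro h
    have h1 := degInt_frob_add_one W
    have h2 := frob_add_one_pos W
    rw [← hQ, degInt, h] at h1
    simp at h1
    omega
  obtain ⟨θ, hθ, hθd⟩ := exists_subst W Q.2 hQd
  have h := hθd _ (frobA W (genA W) - genA W).2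
  have e : Affine.Point.map (W' := W) θ (frobA W (genA W) - genA W : antiPoints W) =
      ((frobA W (frobA W (genA W)) - genA W : antiPoints W) : (W⁄W.FunctionField).Point) := by
    simp only [hQ, genA, frobA, AddSubgroup.coe_sub, AddSubgroup.coe_add,
      AddMonoidHom.codRestrict_apply, AddMonoidHom.coe_comp, Function.comp_apply,
      AddSubgroup.subtype_apply] at hθ ⊢
    rw [map_sub, map_frobPoint, hθ, map_add]
    abel
  rw [e] at h
  rw [← degInt_frob_add_one, ← degInt_frob_sub_one, ← hQ]
  simp only [degInt] at h ⊢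
  exact_mod_cast h

/-- `φ²(P) - a φ(P) + q P`. -/
noncomputable def frobQuad (L : Type*) [Field L] [Algebra k L] [DecidableEq L]
    (P : (W⁄L).Point) : (W⁄L).Point :=
  frobPoint W L (frobPoint W L P) - frobTraceInt W • frobPoint W L P + (q : ℤ) • P

omit [WeierstrassCurve.IsElliptic W] in
theorem map_frobQuad {L M : Type*} [Field L] [Algebra k L] [DecidableEq L] [Field M] [Algebra k M]
    [DecidableEq M] (θ : L →ₐ[k] M) (P : (W⁄L).Point) :
    Affine.Point.map (W' := W) θ (frobQuad W L P) =
      frobQuad W M (Affine.Point.map (W' := W) θ P) := by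
  simp only [frobQuad, map_add, map_sub, map_zsmul, map_frobPoint]

theorem xDeg_frobQuad_gen : xDeg (frobQuad W W.FunctionField (gen W)) = 0 := by
  set a := frobTraceInt W with ha
  set g := genA W
  set f := frobA W
  have hf := degInt_parallelogram W
  have hmem : frobQuad W W.FunctionField (gen W) =
      ((f (f g) + (-a) • f g + (q : ℤ) • g : antiPoints W) : (W⁄W.FunctionField).Point) := by
    simp only [frobQuad, ← ha, AddSubgroup.coe_add, AddSubgroup.coe_zsmul, f, g, frobA, genA,
      AddMonoidHom.codRestrict_apply, AddMonoidHom.coe_comp, Function.comp_apply,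
      AddSubgroup.subtype_apply, neg_zsmul, sub_eq_add_neg, AddSubgroup.coe_neg]
  have hg : degInt W g = 1 := degInt_genA W
  have hfg : degInt W (f g) = q := by rw [degInt_frobA, hg, mul_one]
  have hffg : degInt W (f (f g)) = (q : ℤ) ^ 2 := by rw [degInt_frobA, hfg]; ring
  have h1 : polarForm (degInt W) (f g) g = a := polarForm_frob W
  have h2 : polarForm (degInt W) (f (f g)) (f g) = q * a := by
    rw [← h1, polarForm, polarForm, ← map_add, degInt_frobA, degInt_frobA, degInt_frobA]
    ring
  have h3 : polarForm (degInt W) (f (f g)) g = a ^ 2 - 2 * q := by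
    have h := hf (f (f g)) g
    rw [degInt_frobSq_sub_one, hffg, hg] at h
    simp only [polarForm, hffg, hg]
    linear_combination h
  have key : degInt W (f (f g) + (-a) • f g + (q : ℤ) • g) = 0 := by
    rw [f_add_add hf, hffg, (f_zsmul hf _ _).1, (f_zsmul hf _ _).1,
      (f_zsmul hf _ (f g)).2, polarForm_comm _ ((q : ℤ) • g), (f_zsmul hf _ g).2,
      polarForm_comm _ ((-a) • f g), (f_zsmul hf _ (f g)).2,
      polarForm_comm _ ((q : ℤ) • g), (f_zsmul hf _ g).2, hfg, hg, polarForm_comm g,
      polarForm_comm g, polarForm_comm (f g) (f (f g)), h1, h2, h3]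
    ring
  rw [hmem]
  simpa [degInt] using key

theorem frobQuad_gen : frobQuad W W.FunctionField (gen W) = 0 := by
  set Z := frobQuad W W.FunctionField (gen W) with hZ
  have hmem : Z ∈ antiPoints W := by
    refine (antiPoints W).add_mem ((antiPoints W).sub_mem ?_ ((antiPoints W).zsmul_mem ?_ _))
      ((antiPoints W).zsmul_mem gen_mem_antiPoints _)
    · exact frobPoint_mem_antiPoints W (frobPoint_mem_antiPoints W gen_mem_antiPoints)
    · exact frobPoint_mem_antiPoints W gen_mem_antiPoints
  have hdeg : xDeg Z = 0 := xDeg_frobQuad_gen W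
  have key : ∀ n : ℕ, 0 < n → n • Z = Z ∨ n • Z = -Z := by
    intro n hn
    have hd : xDeg (n • gen W) ≠ 0 := by
      intro h
      have h1 := (f_zsmul (degInt_parallelogram W) (n : ℤ) (genA W)).1
      rw [degInt_genA, natCast_zsmul] at h1
      simp [degInt, genA, h] at h1
      exact absurd h1.symm (pow_ne_zero 2 (by exact_mod_cast hn.ne'))
    obtain ⟨θ, hθ, -⟩ := exists_subst W ((antiPoints W).nsmul_mem gen_mem_antiPoints n) hd
    have e : Affine.Point.map (W' := W) θ Z = n • Z := by
      rw [hZ, map_frobQuad, hθ]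
      simp only [frobQuad, map_nsmul, smul_sub, smul_add, smul_comm n]
    rw [← e]
    clear e hθ
    clear_value Z
    rcases Z with _ | ⟨x, y, h⟩
    · exact Or.inl rfl
    · obtain ⟨a, ha⟩ := eq_algebraMap_of_xDeg_eq_zero hmem hdeg
      rw [Affine.Point.map_some]
      exact Affine.Point.X_eq_iff.mp (by rw [ha, AlgHom.commutes])
  have h3 : (3 : ℕ) • Z = Z ∨ (3 : ℕ) • Z = -Z := key 3 (by norm_num)
  rcases key 2 (by norm_num) with h2 | h2
  · rw [two_nsmul, add_eq_left] at h2
    exact h2
  · have hz : (3 : ℕ) • Z = 0 := by rw [succ_nsmul, h2, neg_add_cancel]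
    rcases h3 with h | h
    · exact (h.symm.trans hz)
    · exact neg_eq_zero.mp (h.symm.trans hz)

omit [Fintype k] in
theorem transcendental_genX : Transcendental k (genX W) :=
  transcendental_of_xDeg_ne_zero (h := (Affine.equation_iff_nonsingular.mp (gen_equation W)))
    (by rw [show Affine.Point.some _ _ _ = gen W from rfl, xDeg_gen]; exact one_ne_zero)

omit [Fintype k] [W.IsElliptic] in
theorem mem_range_map_algebraicClosure {M : Type*} [Field M] [Algebra k M] [DecidableEq M]
    [DecidableEq (algebraicClosure k M)] {x y : M} {h : (W⁄M).Nonsingular x y}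
    (hx : IsAlgebraic k x) :
    Affine.Point.some x y h ∈
      (Affine.Point.map (W' := W) (algebraicClosure k M).val).range := by
  set F := algebraicClosure k M
  have hxF : x ∈ F := mem_algebraicClosure_iff.mpr hx
  have hyF : y ∈ F := by
    rw [mem_algebraicClosure_iff]
    have he := (equation_baseChange_iff W x y).mp h.1
    refine (isIntegral_trans (A := F) y ?_).isAlgebraic
    refine ⟨X ^ 2 + (C (algebraMap k F W.a₁ * ⟨x, hxF⟩ + algebraMap k F W.a₃) * X +
      C (-(⟨x, hxF⟩ ^ 3 + algebraMap k F W.a₂ * ⟨x, hxF⟩ ^ 2 + algebraMap k F W.a₄ * ⟨x, hxF⟩ +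
        algebraMap k F W.a₆))), monic_X_pow_add (lt_of_le_of_lt degree_linear_le (by norm_num)),
      ?_⟩
    simp only [eval₂_add, eval₂_mul, eval₂_pow, eval₂_X, eval₂_C]
    simp only [map_add, map_mul, map_neg, map_pow]
    change y ^ 2 + ((algebraMap k M W.a₁ * x + algebraMap k M W.a₃) * y +
      -(x ^ 3 + algebraMap k M W.a₂ * x ^ 2 + algebraMap k M W.a₄ * x + algebraMap k M W.a₆)) = 0
    linear_combination he
  refine ⟨.some (⟨x, hxF⟩ : F) ⟨y, hyF⟩ ?_, ?_⟩
  · exact (W.baseChange_nonsingular (f := F.val) F.val.injective _ _).mp h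
  · exact Affine.Point.map_some (W' := W) (f := F.val) _

omit [Fintype k] in
/-- Translating an algebraic point by a transcendental one. -/
theorem exists_translate {L : Type*} [Field L] [Algebra k L] [DecidableEq L]
    [Algebra.IsAlgebraic k L] {M : Type*} [Field M] [Algebra k M] [DecidableEq M]
    (ι : W.FunctionField →ₐ[k] M) (j : L →ₐ[k] M) (P : (W⁄L).Point) :
    ∃ (x y : M) (h : (W⁄M).Nonsingular x y) (_ : Transcendental k x),
      Affine.Point.map (W' := W) ι (gen W) + Affine.Point.map (W' := W) j P = .some x y h := by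
  classical
  have hP : Affine.Point.map (W' := W) j P ∈
      (Affine.Point.map (W' := W) (algebraicClosure k M).val).range := by
    rcases P with _ | ⟨x, y, h⟩
    · exact zero_mem _
    · rw [Affine.Point.map_some]
      exact mem_range_map_algebraicClosure W ((Algebra.IsAlgebraic.isAlgebraic x).algHom j)
  have hG : Affine.Point.map (W' := W) ι (gen W) ∉
      (Affine.Point.map (W' := W) (algebraicClosure k M).val).range := by
    rintro ⟨Q, hQ⟩
    rcases Q with _ | ⟨x, y, h⟩
    · rw [gen, Affine.Point.map_some, ← Affine.Point.zero_def, map_zero] at hQ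
      exact Affine.Point.some_ne_zero _ hQ.symm
    · rw [gen, Affine.Point.map_some, Affine.Point.map_some] at hQ
      injection hQ with hx _
      refine transcendental_genX W ((isAlgebraic_algHom_iff ι ι.injective).mp ?_)
      rw [← hx]
      exact mem_algebraicClosure_iff.mp x.2
  generalize hS : Affine.Point.map (W' := W) ι (gen W) + Affine.Point.map (W' := W) j P = S
  rcases S with _ | ⟨x, y, h⟩
  · exact absurd (by rw [add_eq_zero_iff_eq_neg.mp hS]; exact neg_mem hP) hG
  · refine ⟨x, y, h, fun hx => hG ?_, rfl⟩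
    rw [eq_sub_of_add_eq hS]
    exact sub_mem (mem_range_map_algebraicClosure W hx) hP

/-- `φ² - a φ + q` kills every algebraic point. -/
theorem frobQuad_eq_zero {L : Type*} [Field L] [Algebra k L] [DecidableEq L]
    [Algebra.IsAlgebraic k L] (P : (W⁄L).Point) : frobQuad W L P = 0 := by
  classical
  let M := AlgebraicClosure W.FunctionField
  let ι : W.FunctionField →ₐ[k] M := IsScalarTower.toAlgHom k W.FunctionField M
  let j : L →ₐ[k] M := IsAlgClosed.lift
  obtain ⟨x, y, h, hx, hQ⟩ := exists_translate W ι j P
  have h1 := congrArg (Affine.Point.map (W' := W) (pointHom h.1 hx)) (frobQuad_gen W)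
  rw [map_zero, map_frobQuad, map_pointHom_gen h hx] at h1
  have h2 := congrArg (Affine.Point.map (W' := W) ι) (frobQuad_gen W)
  rw [map_zero, map_frobQuad] at h2
  apply Affine.Point.map_injective (f := j)
  rw [map_zero, map_frobQuad]
  rw [← hQ] at h1
  simp only [frobQuad, map_add, smul_add] at h1 h2 ⊢
  linear_combination (norm := abel) h1 - h2

theorem degInt_frob_sub_zsmul (m : ℤ) :
    degInt W (frobA W (genA W) + (-m) • genA W) = m ^ 2 - frobTraceInt W * m + q := by
  have hf := degInt_parallelogram W
  have h := polarForm_comm (f := degInt W) ((-m) • genA W) (frobA W (genA W))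
  rw [(f_zsmul hf _ _).2, polarForm_comm (genA W), polarForm_frob] at h
  have h1 := (f_zsmul hf (-m) (genA W)).1
  simp only [polarForm, degInt_frobA, degInt_genA] at h h1
  linear_combination -h + h1

/-- The degree bounds the kernel of `φ - m` on algebraic points. -/
theorem card_kernel_le {L : Type*} [Field L] [Algebra k L] [DecidableEq L]
    [Algebra.IsAlgebraic k L] (m : ℤ) (hm : m ^ 2 - frobTraceInt W * m + q ≠ 0)
    (s : Finset (W⁄L).Point) (hs : ∀ P ∈ s, frobPoint W L P = m • P) :
    (s.card : ℤ) ≤ 2 * (m ^ 2 - frobTraceInt W * m + q) := by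
  classical
  set Z : antiPoints W := frobA W (genA W) + (-m) • genA W with hZ
  have hdeg : (xDeg (Z : (W⁄W.FunctionField).Point) : ℤ) = m ^ 2 - frobTraceInt W * m + q :=
    degInt_frob_sub_zsmul W m
  have hd0 : xDeg (Z : (W⁄W.FunctionField).Point) ≠ 0 := fun h => hm (by rw [← hdeg, h]; rfl)
  have hZ' : (Z : (W⁄W.FunctionField).Point) = frobPoint W W.FunctionField (gen W) - m • gen W := by
    simp [hZ, frobA, genA, sub_eq_add_neg]
  rw [← hdeg]
  obtain ⟨v, hv⟩ := exists_isRep Z.2
  obtain ⟨c, hc, hvc⟩ := hv.2
  rw [hv.xDeg_eq]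
  rw [hv.xDeg_eq] at hd0
  generalize hZv : (Z : (W⁄W.FunctionField).Point) = Zp at hZ' hv hvc
  rcases Zp with _ | ⟨xz, yz, hz⟩
  · rw [← Affine.Point.zero_def] at hv
    exact absurd (hv.xDeg_eq.symm.trans xDeg_zero) hd0
  have hxz : Transcendental k xz := transcendental_of_xDeg_ne_zero (h := hz) (hv.xDeg_eq ▸ hd0)
  have hv01 : toFun' W (v 0) = toFun' W (v 1) * xz := by
    have h0 := hvc 0
    have h1 := hvc 1
    simp at h0 h1
    simp [h0, h1]
  have hv1 : v 1 ≠ 0 := by
    intro h
    have := hvc 1
    rw [h, map_zero] at this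
    simp at this
    exact hc this.symm
  let M := AlgebraicClosure W.FunctionField
  let ι : W.FunctionField →ₐ[k] M := IsScalarTower.toAlgHom k W.FunctionField M
  let j : L →ₐ[k] M := IsAlgClosed.lift
  choose x y h hx hQ using fun P => exists_translate W ι j P
  set R : M[X] := C (ι xz) * (v 1).map (algebraMap k M) - (v 0).map (algebraMap k M) with hR
  have hR0 : R ≠ 0 := by
    intro h0
    obtain ⟨i, hi⟩ : ∃ i, (v 1).coeff i ≠ 0 := ⟨_, leadingCoeff_ne_zero.mpr hv1⟩
    have := congrArg (fun r : M[X] => r.coeff i) h0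
    simp only [hR, coeff_sub, coeff_C_mul, coeff_map, coeff_zero, sub_eq_zero] at this
    have hxk : xz = algebraMap k W.FunctionField ((v 0).coeff i / (v 1).coeff i) := by
      apply ι.injective
      rw [AlgHom.toRingHom_eq_coe, RingHom.coe_coe, AlgHom.commutes, map_div₀,
        eq_div_iff ((_root_.map_ne_zero _).mpr hi), this]
    exact hxz (hxk ▸ isAlgebraic_algebraMap _)
  have hRdeg : R.natDegree ≤ supDeg v := by
    refine (natDegree_sub_le _ _).trans (max_le ?_ ?_)
    · exact (natDegree_C_mul_le _ _).trans (natDegree_map_le.trans (natDegree_le_supDeg v 1))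
    · exact natDegree_map_le.trans (natDegree_le_supDeg v 0)
  have hroot : ∀ P ∈ s, x P ∈ R.roots.toFinset := by
    intro P hP
    have e1 : Affine.Point.map (W' := W) (pointHom (h P).1 (hx P)) (.some xz yz hz) =
        Affine.Point.map (W' := W) ι (.some xz yz hz) := by
      rw [hZ', map_sub, map_sub, map_zsmul, map_zsmul, map_frobPoint, map_frobPoint,
        map_pointHom_gen (h P) (hx P), ← hQ P, map_add, smul_add, ← map_frobPoint j, hs P hP, map_zsmul]
      abel
    rw [Affine.Point.map_some, Affine.Point.map_some] at e1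
    injection e1 with e1x _
    have h1 := congrArg (pointHom (h P).1 (hx P)) hv01
    rw [map_mul, pointHom_toFun', pointHom_toFun', e1x] at h1
    rw [Multiset.mem_toFinset, mem_roots hR0, IsRoot, hR, eval_sub, eval_mul, eval_C, eval_map,
      eval_map, ← aeval_def, ← aeval_def, h1]
    ring
  have hfib : ∀ a ∈ R.roots.toFinset, (s.filter fun P => x P = a).card ≤ 2 := by
    intro a _
    by_cases hne : (s.filter fun P => x P = a).Nonempty
    · obtain ⟨P₀, hP₀⟩ := hne
      refine le_trans (Finset.card_le_card_of_injOn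
        (fun P => Affine.Point.map (W' := W) ι (gen W) + Affine.Point.map (W' := W) j P)
        (t := {.some _ _ (h P₀), -.some _ _ (h P₀)}) ?_ ?_) ((Finset.card_insert_le _ _).trans
          (by simp))
      · intro P hP
        simp only [Finset.coe_insert, Finset.coe_singleton, Set.mem_insert_iff,
          Set.mem_singleton_iff, hQ]
        exact Affine.Point.X_eq_iff.mp
          ((Finset.mem_filter.mp hP).2.trans (Finset.mem_filter.mp hP₀).2.symm)
      · intro P _ P' _ hPP'
        exact Affine.Point.map_injective (f := j) (add_left_cancel hPP')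
    · simp [Finset.not_nonempty_iff_eq_empty.mp hne]
  have hcard : s.card ≤ 2 * R.roots.toFinset.card :=
    Finset.card_le_mul_card_image_of_maps_to hroot 2 hfib
  have hroots : R.roots.toFinset.card ≤ supDeg v :=
    (Multiset.toFinset_card_le _).trans ((card_roots' R).trans hRdeg)
  exact_mod_cast hcard.trans (Nat.mul_le_mul_left 2 hroots)

end Fermat.Agent.EC.FrobTrace
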